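import Fermat.Agent.S27.Grp.Spec
import Fermat.Agent.S25.H130.PB

/-!
# Row S27, block GRP: basic calculus (helper798)

* `corr_of_isIso`, `corr_of_rIso` : `Corr` is invariant under isomorphism of the gluing datum
  and of the line bundle;
* `rIso_pullbackAlong_unit` : the pullback of the unit bundle is the unit bundle;
* `IsModel.of_rIso`, `IsModel.comap`, `IsModel.mono` : formal properties of models of recipes.
-/

set_option autoImplicit false
universe u
open CategoryTheory CategoryTheory.Limits AlgebraicGeometry AlgebraicGeometry.RelPicard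
  NeronModelInfra GoodReductionJacobian
open scoped TensorProduct

namespace Fermat.Agent.S27.Grp

open Fermat.Agent.S25 Fermat.Agent.S27 Fermat.Agent.S25.H130

noncomputable section

section GD

variable {A R₀ R₁ R₀₁ : Type u} [CommRing A] [CommRing R₀] [CommRing R₁]
    [CommRing R₀₁] [Algebra A R₀] [Algebra A R₁] [Algebra A R₀₁] [Algebra R₀ R₀₁]
    [Algebra R₁ R₀₁] [IsScalarTower A R₀ R₀₁] [IsScalarTower A R₁ R₀₁]

theorem isIso_refl (G : GlueDatum A R₀ R₁ R₀₁) : G.IsIso G :=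
  ⟨⟨LinearEquiv.refl _ _, LinearEquiv.refl _ _, LinearEquiv.refl _ _, fun _ => rfl,
    fun _ => rfl⟩⟩

theorem isIso_symm {G G' : GlueDatum A R₀ R₁ R₀₁} (h : G.IsIso G') : G'.IsIso G := by
  obtain ⟨e⟩ := h
  refine ⟨⟨e.e₀.symm, e.e₁.symm, e.e₀₁.symm, fun s => ?_, fun s => ?_⟩⟩
  · apply e.e₀₁.injective
    rw [LinearEquiv.apply_symm_apply, e.comm₀, LinearEquiv.apply_symm_apply]
  · apply e.e₀₁.injective
    rw [LinearEquiv.apply_symm_apply, e.comm₁, LinearEquiv.apply_symm_apply]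

theorem isIso_trans {G G' G'' : GlueDatum A R₀ R₁ R₀₁} (h : G.IsIso G')
    (h' : G'.IsIso G'') : G.IsIso G'' := by
  obtain ⟨e⟩ := h
  obtain ⟨e'⟩ := h'
  refine ⟨⟨e.e₀.trans e'.e₀, e.e₁.trans e'.e₁, e.e₀₁.trans e'.e₀₁, fun s => ?_, fun s => ?_⟩⟩
  · simp only [LinearEquiv.trans_apply, e.comm₀, e'.comm₀]
  · simp only [LinearEquiv.trans_apply, e.comm₁, e'.comm₁]

end GD

variable {k : Type u} [Field k] {C : Scheme.{u}} {c : C ⟶ Spec (CommRingCat.of k)}
  {ε : SchemeHomOver (𝟙 (Spec (CommRingCat.of k))) c} {Ch : ChartOf c ε}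

section Corr

variable {A : Type u} [CommRing A] [Algebra k A]

theorem isSectionsIso_trans {L : (pullback c (specStr k A)).Modules} {U : C.Opens} {B : Type u}
    [CommRing B] [Algebra k B] {i : Γ(C, U) ≃+* B} {N N' : Type u} [AddCommGroup N]
    [Module (A ⊗[k] B) N] [AddCommGroup N'] [Module (A ⊗[k] B) N']
    {e : Γ(L, preimageOpen (c := c) A U) ≃+ N} (he : IsSectionsIso A L U i e)
    (f : N ≃ₗ[A ⊗[k] B] N') : IsSectionsIso A L U i (e.trans f.toAddEquiv) := by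
  refine ⟨fun a s => ?_, fun g s => ?_⟩
  · change f (e _) = _ • f (e s)
    rw [he.1, map_smul]
  · change f (e _) = _ • f (e s)
    rw [he.2, map_smul]

/-- `Corr` is invariant under isomorphism of gluing data. -/
theorem corr_of_isIso {L : (pullback c (specStr k A)).Modules}
    {G G' : CurveGD k Ch.B₀ Ch.B₁ Ch.B₀₁ A} (h : Corr Ch A L G) (hI : G.IsIso G') :
    Corr Ch A L G' := by
  obtain ⟨e₀, e₁, e₀₁, h₀, h₁, h₀₁, hr₀, hr₁⟩ := h
  obtain ⟨I⟩ := hI
  refine ⟨e₀.trans I.e₀.toAddEquiv, e₁.trans I.e₁.toAddEquiv, e₀₁.trans I.e₀₁.toAddEquiv,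
    isSectionsIso_trans h₀ _, isSectionsIso_trans h₁ _, isSectionsIso_trans h₀₁ _,
    fun s => ?_, fun s => ?_⟩
  · change I.e₀₁ (e₀₁ _) = G'.r₀ (I.e₀ (e₀ s))
    rw [hr₀, I.comm₀]
  · change I.e₀₁ (e₀₁ _) = G'.r₁ (I.e₁ (e₁ s))
    rw [hr₁, I.comm₁]

/-- `Corr` is invariant under isomorphism of rigidified line bundles. -/
theorem corr_of_rIso (hD : Dict Ch) {M M' : RigidifiedLineBundle c ε (specStr k A)}
    {G : CurveGD k Ch.B₀ Ch.B₁ Ch.B₀₁ A} (h : Corr Ch A M.L G) (hI : RIso M M') :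
    Corr Ch A M'.L G := by
  obtain ⟨G', hG', -⟩ := hD.sec A M'
  exact corr_of_isIso hG' ((hD.iso A M' M G' G hG' h).1 (rIso_symm hI))

/-- Two gluing data of isomorphic bundles are isomorphic. -/
theorem isIso_of_corr (hD : Dict Ch) {M M' : RigidifiedLineBundle c ε (specStr k A)}
    {G G' : CurveGD k Ch.B₀ Ch.B₁ Ch.B₀₁ A} (h : Corr Ch A M.L G) (h' : Corr Ch A M'.L G')
    (hI : RIso M M') : G.IsIso G' :=
  (hD.iso A M M' G G' h h').1 hI

/-- Two bundles with isomorphic gluing data are isomorphic. -/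
theorem rIso_of_corr (hD : Dict Ch) {M M' : RigidifiedLineBundle c ε (specStr k A)}
    {G G' : CurveGD k Ch.B₀ Ch.B₁ Ch.B₀₁ A} (h : Corr Ch A M.L G) (h' : Corr Ch A M'.L G')
    (hI : G.IsIso G') : RIso M M' :=
  (hD.iso A M M' G G' h h').2 hI

end Corr

section Unit

variable {T T' : Scheme.{u}} {t : T ⟶ Spec (CommRingCat.of k)}
  {t' : T' ⟶ Spec (CommRingCat.of k)}

/-- The pullback of the unit bundle is the unit bundle. -/
theorem rIso_pullbackAlong_unit (ψ : SchemeHomOver t' t) :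
    RIso ((RigidifiedLineBundle.unit (c := c) (ε := ε) t).pullbackAlong ψ)
      (RigidifiedLineBundle.unit (c := c) (ε := ε) t') :=
  ⟨Scheme.Modules.pullbackUnitIso _⟩

end Unit

section Model

variable {T T' : Scheme.{u}} {t : T ⟶ Spec (CommRingCat.of k)}
  {t' : T' ⟶ Spec (CommRingCat.of k)}

theorem IsModel.of_rIso {𝒢 : Recipe Ch t} {N N' : RigidifiedLineBundle c ε t}
    (h : IsModel Ch 𝒢 N) (e : RIso N N') : IsModel Ch 𝒢 N' :=
  fun A _ _ s G L hG hL =>
    rIso_trans (rIso_pullbackAlong (rIso_symm e) s) (h A s G L hG hL)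

theorem IsModel.mono {𝒢 𝒢' : Recipe Ch t} {N : RigidifiedLineBundle c ε t}
    (h : IsModel Ch 𝒢' N)
    (hle : ∀ (A : Type u) [CommRing A] [Algebra k A] (s : SchemeHomOver (specStr k A) t)
      (G : CurveGD k Ch.B₀ Ch.B₁ Ch.B₀₁ A), 𝒢 A s G → 𝒢' A s G) : IsModel Ch 𝒢 N :=
  fun A _ _ s G L hG hL => h A s G L (hle A s G hG) hL

theorem IsModel.comap {𝒢 : Recipe Ch t} {N : RigidifiedLineBundle c ε t}
    (h : IsModel Ch 𝒢 N) (ψ : SchemeHomOver t' t) :
    IsModel Ch (𝒢.comap ψ) (N.pullbackAlong ψ) :=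
  fun A _ _ s G L hG hL =>
    rIso_trans (rIso_pullbackAlong_comp N ψ s) (h A (postComp ψ s) G L hG hL)

end Model

end

end Fermat.Agent.S27.Grp
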