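import Fermat.Agent.S27.Grp.Rel

/-!
# Row S27, block GRP: the formal construction of the group law (helper798)

`grp_of_relCalc` : from the relative tensor calculus (`RelCalc Ch`) and a representing object
`hrep` of the degree-zero rigidified Picard functor, the commutative `RelativeGroupLaw` on the
Jacobian whose multiplication on affine test schemes is the tensor product of gluing data.
`mul g g'` classifies the tensor product of the pullbacks of the Poincaré bundle.
-/

set_option autoImplicit false
universe u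
open CategoryTheory CategoryTheory.Limits AlgebraicGeometry AlgebraicGeometry.RelPicard
  NeronModelInfra GoodReductionJacobian
open scoped TensorProduct

namespace Fermat.Agent.S27.Grp

open Fermat.Agent.S25 Fermat.Agent.S27 Fermat.Agent.S25.H130

noncomputable section

variable {k : Type u} [Field k] {C : Scheme.{u}} {c : C ⟶ Spec (CommRingCat.of k)}
  {ε : SchemeHomOver (𝟙 (Spec (CommRingCat.of k))) c} {Ch : ChartOf c ε}
  {D : RelativePic0Designation k c}

namespace Formal

variable (hrep : RepresentsRelSubPic c ε (algEquivZeroCut c ε) D)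

/-- The bundle of a point of the Jacobian: the pullback of the Poincaré bundle. -/
abbrev bun {T : Scheme.{u}} {t : T ⟶ Spec (CommRingCat.of k)} (g : SchemeHomOver t D.toBase) :
    RigidifiedLineBundle c ε t :=
  hrep.poincare.pullbackAlong g

theorem bun_faez {T : Scheme.{u}} {t : T ⟶ Spec (CommRingCat.of k)}
    (g : SchemeHomOver t D.toBase) : FibrewiseAlgEquivZero (bun hrep g) :=
  FibrewiseAlgEquivZero.pullback g hrep.poincare_mem

/-- The point classifying a bundle of degree zero. -/
def pt {T : Scheme.{u}} (t : T ⟶ Spec (CommRingCat.of k)) (M : RigidifiedLineBundle c ε t)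
    (hM : FibrewiseAlgEquivZero M) : SchemeHomOver t D.toBase :=
  hrep.classify t M hM

theorem bun_pt {T : Scheme.{u}} (t : T ⟶ Spec (CommRingCat.of k))
    (M : RigidifiedLineBundle c ε t) (hM : FibrewiseAlgEquivZero M) :
    RIso (bun hrep (pt hrep t M hM)) M :=
  hrep.classify_spec t M hM

theorem eq_of_rIso {T : Scheme.{u}} {t : T ⟶ Spec (CommRingCat.of k)}
    {g g' : SchemeHomOver t D.toBase} (e : RIso (bun hrep g) (bun hrep g')) : g = g' :=
  hrep.ext_of_iso t g g' e

/-- Pullback of the bundle of a point is the bundle of the composite point. -/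
theorem rIso_bun_comp {T T' : Scheme.{u}} {t : T ⟶ Spec (CommRingCat.of k)}
    {t' : T' ⟶ Spec (CommRingCat.of k)} (ψ : T' ⟶ T) (hψ : ψ ≫ t = t')
    (g : SchemeHomOver t D.toBase) :
    RIso ((bun hrep g).pullbackAlong (⟨ψ, hψ⟩ : SchemeHomOver t' t))
      (bun hrep (schemeHomOverComp ψ hψ g)) :=
  rIso_pullbackAlong_comp hrep.poincare g (⟨ψ, hψ⟩ : SchemeHomOver t' t)

variable (h : RelCalc Ch)

/-- The product of two points. -/
def mulPt {T : Scheme.{u}} (t : T ⟶ Spec (CommRingCat.of k)) (g g' : SchemeHomOver t D.toBase) :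
    SchemeHomOver t D.toBase :=
  pt hrep t (h.tens_exists (bun hrep g) (bun hrep g') (bun_faez hrep g) (bun_faez hrep g')).choose
    (h.tens_exists (bun hrep g) (bun hrep g') (bun_faez hrep g)
      (bun_faez hrep g')).choose_spec.1

theorem mulPt_spec {T : Scheme.{u}} (t : T ⟶ Spec (CommRingCat.of k))
    (g g' : SchemeHomOver t D.toBase) :
    IsTens Ch t (bun hrep g) (bun hrep g') (bun hrep (mulPt hrep h t g g')) :=
  h.tens_congr (h.tens_exists (bun hrep g) (bun hrep g') (bun_faez hrep g)
    (bun_faez hrep g')).choose_spec.2 (rIso_refl _) (rIso_refl _)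
    (rIso_symm (bun_pt hrep t _ _))

theorem mulPt_eq {T : Scheme.{u}} (t : T ⟶ Spec (CommRingCat.of k))
    {g g' x : SchemeHomOver t D.toBase}
    (hx : IsTens Ch t (bun hrep g) (bun hrep g') (bun hrep x)) : mulPt hrep h t g g' = x :=
  eq_of_rIso hrep (h.tens_unique (mulPt_spec hrep h t g g') hx)

/-- The neutral point. -/
def onePt {T : Scheme.{u}} (t : T ⟶ Spec (CommRingCat.of k)) : SchemeHomOver t D.toBase :=
  pt hrep t (RigidifiedLineBundle.unit (c := c) (ε := ε) t) (fibrewiseAlgEquivZero_unit t)

theorem onePt_spec {T : Scheme.{u}} (t : T ⟶ Spec (CommRingCat.of k)) :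
    RIso (bun hrep (onePt hrep t)) (RigidifiedLineBundle.unit (c := c) (ε := ε) t) :=
  bun_pt hrep t _ _

/-- The inverse of a point. -/
def invPt {T : Scheme.{u}} (t : T ⟶ Spec (CommRingCat.of k)) (g : SchemeHomOver t D.toBase) :
    SchemeHomOver t D.toBase :=
  pt hrep t (h.tens_inv (bun hrep g) (bun_faez hrep g)).choose
    (h.tens_inv (bun hrep g) (bun_faez hrep g)).choose_spec.1

theorem invPt_spec {T : Scheme.{u}} (t : T ⟶ Spec (CommRingCat.of k))
    (g : SchemeHomOver t D.toBase) :
    IsTens Ch t (bun hrep (invPt hrep h t g)) (bun hrep g) (bun hrep (onePt hrep t)) :=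
  h.tens_congr (h.tens_inv (bun hrep g) (bun_faez hrep g)).choose_spec.2
    (rIso_symm (bun_pt hrep t _ _)) (rIso_refl _) (rIso_symm (onePt_spec hrep t))

/-- The group law. -/
def law : RelativeGroupLaw k D.toBase where
  mul t g g' := mulPt hrep h t g g'
  one t := onePt hrep t
  inv t g := invPt hrep h t g
  mul_assoc t x y z :=
    eq_of_rIso hrep (h.tens_assoc (mulPt_spec hrep h t x y)
      (mulPt_spec hrep h t (mulPt hrep h t x y) z) (mulPt_spec hrep h t y z)
      (mulPt_spec hrep h t x (mulPt hrep h t y z)))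
  one_mul t x :=
    mulPt_eq hrep h t (h.tens_congr (h.tens_unit (bun hrep x))
      (rIso_symm (onePt_spec hrep t)) (rIso_refl _) (rIso_refl _))
  mul_one t x :=
    mulPt_eq hrep h t (h.tens_comm (h.tens_congr (h.tens_unit (bun hrep x))
      (rIso_symm (onePt_spec hrep t)) (rIso_refl _) (rIso_refl _)))
  inv_mul_cancel t x := mulPt_eq hrep h t (invPt_spec hrep h t x)
  mul_natural t t' ψ hψ x y :=
    (mulPt_eq hrep h t' (h.tens_congr
      (h.tens_pullback (mulPt_spec hrep h t x y) (⟨ψ, hψ⟩ : SchemeHomOver t' t))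
      (rIso_bun_comp hrep ψ hψ x) (rIso_bun_comp hrep ψ hψ y)
      (rIso_bun_comp hrep ψ hψ (mulPt hrep h t x y)))).symm

theorem law_comm : (law hrep h).IsCommutative :=
  fun t x y => mulPt_eq hrep h t (h.tens_comm (mulPt_spec hrep h t y x))

theorem law_tensor (A : Type u) [CommRing A] [Algebra k A]
    (g g' : SchemeHomOver (specStr k A) D.toBase) (G G' G'' : CurveGD k Ch.B₀ Ch.B₁ Ch.B₀₁ A)
    (hG : Corr Ch A (hrep.poincare.pullbackAlong g).L G)
    (hG' : Corr Ch A (hrep.poincare.pullbackAlong g').L G') (hT : IsTensor G G' G'') :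
    Corr Ch A (hrep.poincare.pullbackAlong ((law hrep h).mul (specStr k A) g g')).L G'' :=
  h.tens_law (mulPt_spec hrep h (specStr k A) g g') hG hG' hT

end Formal

/-- **G-FORMAL**: the conclusion of `Stmt.Grp` for one curve, from the relative tensor
calculus. -/
theorem grp_of_relCalc (h : RelCalc Ch)
    (hrep : RepresentsRelSubPic c ε (algEquivZeroCut c ε) D) :
    ∃ L : RelativeGroupLaw k D.toBase, L.IsCommutative ∧
      ∀ (A : Type u) [CommRing A] [Algebra k A] (g g' : SchemeHomOver (specStr k A) D.toBase)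
        (G G' G'' : CurveGD k Ch.B₀ Ch.B₁ Ch.B₀₁ A),
        Corr Ch A (hrep.poincare.pullbackAlong g).L G →
        Corr Ch A (hrep.poincare.pullbackAlong g').L G' → IsTensor G G' G'' →
        Corr Ch A (hrep.poincare.pullbackAlong (L.mul (specStr k A) g g')).L G'' :=
  ⟨Formal.law hrep h, Formal.law_comm hrep h, Formal.law_tensor hrep h⟩

/-- **GRP** from the relative tensor calculus of every curve. -/
theorem grp_of_forall_relCalc (k : Type u) [Field k]
    (H : ∀ [IsAlgClosed k] {C : Scheme.{u}} (c : C ⟶ Spec (CommRingCat.of k))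
      [IsProper c] [SmoothOfRelativeDimension 1 c] [IsIntegral C]
      (ε : SchemeHomOver (𝟙 (Spec (CommRingCat.of k))) c) (Ch : ChartOf c ε), RelCalc Ch) :
    S27.Stmt.Grp k :=
  fun {_} {_} c _ _ _ ε Ch _ hrep => grp_of_relCalc (H c ε Ch) hrep

end

end Fermat.Agent.S27.Grp
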