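import Fermat.Agent.S27.Grp.Basic

/-!
# Row S27, block GRP: the relative tensor calculus (helper798)

From the glue blocks `RecipeUnique`, `RecipeExists`, `RecipeCorr`, `RecipeDeg`, `TensGood`, the
algebra leaves and the S25 dictionary (bundled in `RelCalc`), the tensor relation `IsTens` on
rigidified line bundles has all the properties of a commutative group law up to isomorphism:
existence, uniqueness, congruence, pullback, commutativity, associativity, unit, inverse, and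
it computes the tensor product of gluing data on affine bases.
-/

set_option autoImplicit false
universe u
open CategoryTheory CategoryTheory.Limits AlgebraicGeometry AlgebraicGeometry.RelPicard
  NeronModelInfra GoodReductionJacobian
open scoped TensorProduct

namespace Fermat.Agent.S27.Grp

open Fermat.Agent.S25 Fermat.Agent.S27 Fermat.Agent.S25.H130

noncomputable section

variable {k : Type u} [Field k] {C : Scheme.{u}} {c : C ⟶ Spec (CommRingCat.of k)}
  {ε : SchemeHomOver (𝟙 (Spec (CommRingCat.of k))) c}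

/-- Everything the formal construction of the group law needs. -/
structure RelCalc (Ch : ChartOf c ε) : Prop where
  dict : Dict Ch
  alg : AlgLeaves k
  unique : Stmt.RecipeUnique Ch
  exists_model : Stmt.RecipeExists Ch
  corr : Stmt.RecipeCorr Ch
  deg : Stmt.RecipeDeg Ch
  good : Stmt.TensGood Ch

variable {Ch : ChartOf c ε}

section Recipes

variable {T T' : Scheme.{u}} {t : T ⟶ Spec (CommRingCat.of k)}
  {t' : T' ⟶ Spec (CommRingCat.of k)}

theorem tensRecipe_of_rIso (hD : Dict Ch) {M M' N N' : RigidifiedLineBundle c ε t}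
    (e : RIso M N) (e' : RIso M' N') (A : Type u) [CommRing A] [Algebra k A]
    (s : SchemeHomOver (specStr k A) t) (G : CurveGD k Ch.B₀ Ch.B₁ Ch.B₀₁ A)
    (h : tensRecipe Ch M M' A s G) : tensRecipe Ch N N' A s G := by
  obtain ⟨G₁, G₂, h₁, h₂, hT⟩ := h
  exact ⟨G₁, G₂, corr_of_rIso hD h₁ (rIso_pullbackAlong e s),
    corr_of_rIso hD h₂ (rIso_pullbackAlong e' s), hT⟩

theorem tensRecipe_comap (hD : Dict Ch) (M M' : RigidifiedLineBundle c ε t)
    (ψ : SchemeHomOver t' t) (A : Type u) [CommRing A] [Algebra k A]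
    (s : SchemeHomOver (specStr k A) t') (G : CurveGD k Ch.B₀ Ch.B₁ Ch.B₀₁ A)
    (h : tensRecipe Ch (M.pullbackAlong ψ) (M'.pullbackAlong ψ) A s G) :
    (tensRecipe Ch M M').comap ψ A s G := by
  obtain ⟨G₁, G₂, h₁, h₂, hT⟩ := h
  exact ⟨G₁, G₂, corr_of_rIso hD h₁ (rIso_pullbackAlong_comp M ψ s),
    corr_of_rIso hD h₂ (rIso_pullbackAlong_comp M' ψ s), hT⟩

end Recipes

namespace RelCalc

variable (h : RelCalc Ch)
variable {T T' : Scheme.{u}} {t : T ⟶ Spec (CommRingCat.of k)}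
  {t' : T' ⟶ Spec (CommRingCat.of k)}

include h

/-- (E) existence of tensor products. -/
theorem tens_exists (M M' : RigidifiedLineBundle c ε t) (hM : FibrewiseAlgEquivZero M)
    (hM' : FibrewiseAlgEquivZero M') :
    ∃ M'' : RigidifiedLineBundle c ε t, FibrewiseAlgEquivZero M'' ∧ IsTens Ch t M M' M'' := by
  obtain ⟨hg, -, hd, -⟩ := h.good t M M'
  obtain ⟨N, hN⟩ := h.exists_model t _ hg
  exact ⟨N, h.deg t _ hg (hd hM hM') N hN, hN⟩

/-- (U) uniqueness of tensor products. -/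
theorem tens_unique {M M' N N' : RigidifiedLineBundle c ε t} (h1 : IsTens Ch t M M' N)
    (h2 : IsTens Ch t M M' N') : RIso N N' :=
  h.unique t _ (h.good t M M').1 N N' h1 h2

/-- The pullbacks of a tensor product have the tensor product gluing data. -/
theorem tens_corr {M M' N : RigidifiedLineBundle c ε t} (hN : IsTens Ch t M M' N)
    {A : Type u} [CommRing A] [Algebra k A] (s : SchemeHomOver (specStr k A) t)
    {G G' G'' : CurveGD k Ch.B₀ Ch.B₁ Ch.B₀₁ A} (hG : Corr Ch A (M.pullbackAlong s).L G)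
    (hG' : Corr Ch A (M'.pullbackAlong s).L G') (hT : IsTensor G G' G'') :
    Corr Ch A (N.pullbackAlong s).L G'' :=
  h.corr t _ (h.good t M M').1 N hN A s G'' ⟨G, G', hG, hG', hT⟩

/-- (cong) the tensor relation is invariant under isomorphism. -/
theorem tens_congr {M M' M'' N N' N'' : RigidifiedLineBundle c ε t}
    (hT : IsTens Ch t M M' M'') (e : RIso M N) (e' : RIso M' N') (e'' : RIso M'' N'') :
    IsTens Ch t N N' N'' :=
  (IsModel.mono hT (fun A _ _ s G hG =>
    tensRecipe_of_rIso h.dict (rIso_symm e) (rIso_symm e') A s G hG)).of_rIso e''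

/-- (BC) the tensor relation is stable under pullback. -/
theorem tens_pullback {M M' M'' : RigidifiedLineBundle c ε t} (hT : IsTens Ch t M M' M'')
    (ψ : SchemeHomOver t' t) :
    IsTens Ch t' (M.pullbackAlong ψ) (M'.pullbackAlong ψ) (M''.pullbackAlong ψ) :=
  IsModel.mono (IsModel.comap hT ψ) (fun A _ _ s G hG => tensRecipe_comap h.dict M M' ψ A s G hG)

/-- (C) commutativity. -/
theorem tens_comm {M M' M'' : RigidifiedLineBundle c ε t} (hT : IsTens Ch t M M' M'') :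
    IsTens Ch t M' M M'' :=
  IsModel.mono hT (fun A _ _ s G hG => by
    obtain ⟨G₁, G₂, h₁, h₂, hT⟩ := hG
    exact ⟨G₂, G₁, h₂, h₁, h.alg.tensComm _ _ _ _ _ _ _ hT⟩)

/-- (A) associativity, first form: `(M ⊗ M') ⊗ M''` is a tensor product of `M` and
`M' ⊗ M''`. -/
theorem tens_assoc' {M M' M'' X Y Z : RigidifiedLineBundle c ε t} (hX : IsTens Ch t M M' X)
    (hY : IsTens Ch t X M'' Y) (hZ : IsTens Ch t M' M'' Z) : IsTens Ch t M Z Y := by
  intro A _ _ s G₃ L hG₃ hL
  obtain ⟨G, GZ, hG, hGZ, hT₃⟩ := hG₃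
  obtain ⟨G', hG', -⟩ := h.dict.sec A (M'.pullbackAlong s)
  obtain ⟨G'', hG'', -⟩ := h.dict.sec A (M''.pullbackAlong s)
  obtain ⟨GX, hTX⟩ := h.alg.tensorExists _ _ _ _ G G'
  obtain ⟨GY, hTY⟩ := h.alg.tensorExists _ _ _ _ GX G''
  obtain ⟨GZ', hTZ⟩ := h.alg.tensorExists _ _ _ _ G' G''
  obtain ⟨GW, hTW⟩ := h.alg.tensorExists _ _ _ _ G GZ'
  have cX : Corr Ch A (X.pullbackAlong s).L GX := h.tens_corr hX s hG hG' hTX
  have cY : Corr Ch A (Y.pullbackAlong s).L GY := h.tens_corr hY s cX hG'' hTY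
  have cZ : Corr Ch A (Z.pullbackAlong s).L GZ' := h.tens_corr hZ s hG' hG'' hTZ
  have iZ : GZ.IsIso GZ' := isIso_of_corr h.dict hGZ cZ (rIso_refl _)
  have iYW : GY.IsIso GW := h.alg.tensAssoc _ _ _ _ G G' G'' GX GY GZ' GW hTX hTY hTZ hTW
  have hT₃' : IsTensor G GZ' G₃ :=
    h.alg.tensIso _ _ _ _ _ _ _ _ _ _ hT₃ (isIso_refl _) iZ (isIso_refl _)
  have i₃ : G₃.IsIso GW := h.alg.tensUnique _ _ _ _ _ _ _ _ hT₃' hTW
  exact rIso_of_corr h.dict cY hL (isIso_trans iYW (isIso_symm i₃))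

/-- (A) associativity. -/
theorem tens_assoc {M M' M'' X Y Z W : RigidifiedLineBundle c ε t} (hX : IsTens Ch t M M' X)
    (hY : IsTens Ch t X M'' Y) (hZ : IsTens Ch t M' M'' Z) (hW : IsTens Ch t M Z W) :
    RIso Y W :=
  h.tens_unique (h.tens_assoc' hX hY hZ) hW

/-- The gluing datum of a pullback of the unit bundle is the unit datum. -/
theorem isIso_unit_of_corr {A : Type u} [CommRing A] [Algebra k A]
    (s : SchemeHomOver (specStr k A) t) {G : CurveGD k Ch.B₀ Ch.B₁ Ch.B₀₁ A}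
    (hG : Corr Ch A ((RigidifiedLineBundle.unit (c := c) (ε := ε) t).pullbackAlong s).L G) :
    G.IsIso (GlueDatum.unit A (A ⊗[k] Ch.B₀) (A ⊗[k] Ch.B₁) (A ⊗[k] Ch.B₀₁)) :=
  isIso_of_corr h.dict hG (h.dict.unit A) (rIso_pullbackAlong_unit s)

/-- (1) the unit bundle is neutral. -/
theorem tens_unit (M : RigidifiedLineBundle c ε t) :
    IsTens Ch t (RigidifiedLineBundle.unit (c := c) (ε := ε) t) M M := by
  intro A _ _ s G₃ L hG₃ hL
  obtain ⟨Gu, G, hGu, hG, hT₃⟩ := hG₃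
  have iu := h.isIso_unit_of_corr s hGu
  have hT : IsTensor Gu G G :=
    h.alg.tensIso _ _ _ _ _ _ _ _ _ _ (h.alg.tensUnit _ _ _ _ G) (isIso_symm iu) (isIso_refl _)
      (isIso_refl _)
  have i₃ : G.IsIso G₃ := h.alg.tensUnique _ _ _ _ _ _ _ _ hT hT₃
  exact rIso_of_corr h.dict hG hL i₃

/-- (I) existence of inverses. -/
theorem tens_inv (M : RigidifiedLineBundle c ε t) (hM : FibrewiseAlgEquivZero M) :
    ∃ M' : RigidifiedLineBundle c ε t, FibrewiseAlgEquivZero M' ∧
      IsTens Ch t M' M (RigidifiedLineBundle.unit (c := c) (ε := ε) t) := by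
  obtain ⟨-, hg, -, hd⟩ := h.good t M M
  obtain ⟨N, hN⟩ := h.exists_model t _ hg
  refine ⟨N, h.deg t _ hg (hd hM) N hN, ?_⟩
  intro A _ _ s G₃ L hG₃ hL
  obtain ⟨G', G, hG', hG, hT₃⟩ := hG₃
  obtain ⟨G₁', ⟨G₁, hG₁, hT₁⟩, -⟩ := hg.exists_rig A s
  have cN : Corr Ch A (N.pullbackAlong s).L G₁' := h.corr t _ hg N hN A s G₁' ⟨G₁, hG₁, hT₁⟩
  have i' : G'.IsIso G₁' := isIso_of_corr h.dict hG' cN (rIso_refl _)
  have i : G.IsIso G₁ := isIso_of_corr h.dict hG hG₁ (rIso_refl _)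
  have hT : IsTensor G₁' G₁ G₃ := h.alg.tensIso _ _ _ _ _ _ _ _ _ _ hT₃ i' i (isIso_refl _)
  have i₃ : G₃.IsIso (GlueDatum.unit A (A ⊗[k] Ch.B₀) (A ⊗[k] Ch.B₁) (A ⊗[k] Ch.B₀₁)) :=
    h.alg.tensUnique _ _ _ _ _ _ _ _ hT hT₁
  exact rIso_trans (rIso_pullbackAlong_unit s)
    (rIso_of_corr h.dict (h.dict.unit A) hL (isIso_symm i₃))

/-- (LAW) on an affine base, the tensor relation is the tensor product of gluing data. -/
theorem tens_law {A : Type u} [CommRing A] [Algebra k A]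
    {M M' M'' : RigidifiedLineBundle c ε (specStr k A)}
    (hT : IsTens Ch (specStr k A) M M' M'') {G G' G'' : CurveGD k Ch.B₀ Ch.B₁ Ch.B₀₁ A}
    (hG : Corr Ch A M.L G) (hG' : Corr Ch A M'.L G') (hTG : IsTensor G G' G'') :
    Corr Ch A M''.L G'' := by
  have hid : 𝟙 (Spec (CommRingCat.of A)) ≫ specStr k A = specStr k A := Category.id_comp _
  have c1 := corr_of_rIso h.dict hG (rIso_symm (rIso_pullbackAlong_id M hid))
  have c2 := corr_of_rIso h.dict hG' (rIso_symm (rIso_pullbackAlong_id M' hid))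
  exact corr_of_rIso h.dict (h.tens_corr hT ⟨𝟙 _, hid⟩ c1 c2 hTG) (rIso_pullbackAlong_id M'' hid)

end RelCalc

end

end Fermat.Agent.S27.Grp
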