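import Fermat.Agent.S27.Spec

/-!
# Row S27, block GRP (the group law of the Jacobian): frozen interface (sub-architect helper798)

Target: `Fermat.Agent.S27.Stmt.Grp k` (see `Fermat/Agent/S27/Spec.lean`).

Mathlib has no tensor product of sheaves of modules, so the group law is built from TENSOR
PRODUCTS OF GLUING DATA (`S27.IsTensor`) through the S25 dictionary (`S25.Corr`), and glued with
the S25 descent statements (`SheafSep`, `SheafGlue`, `LocalP`).

* A *recipe* over `t : T ⟶ Spec k` prescribes, for every affine test `s : Spec A ⟶ T`, a set of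
  gluing data over `A`.  A rigidified line bundle `N` over `T` is a *model* of the recipe if the
  pullback `s^* N` is the bundle of every prescribed datum.
* `tensRecipe M M'` prescribes the tensor products of the data of `s^* M` and `s^* M'`;
  `invRecipe M` prescribes the inverses of the data of `s^* M`.
* `IsTens t M M' M''` : `M''` is a model of `tensRecipe M M'`  ("`M'' = M ⊗ M'`").

Only definitions here.  Leaves = the `Prop`s of `namespace Stmt`.  Glue: `Grp/*.lean`.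
-/

set_option autoImplicit false
universe u
open CategoryTheory CategoryTheory.Limits AlgebraicGeometry AlgebraicGeometry.RelPicard
  NeronModelInfra GoodReductionJacobian
open scoped TensorProduct

namespace Fermat.Agent.S27.Grp

open Fermat.Agent.S25 Fermat.Agent.S27

noncomputable section

/-! ## Recipes and their models -/

section Recipe

variable {k : Type u} [Field k] {C : Scheme.{u}} {c : C ⟶ Spec (CommRingCat.of k)}
  {ε : SchemeHomOver (𝟙 (Spec (CommRingCat.of k))) c} (Ch : ChartOf c ε)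

/-- A recipe over `t`: for every affine test `s : Spec A ⟶ T` over `k`, a set of gluing data
over `A`. -/
def Recipe {T : Scheme.{u}} (t : T ⟶ Spec (CommRingCat.of k)) : Type (u + 1) :=
  ∀ (A : Type u) [CommRing A] [Algebra k A], SchemeHomOver (specStr k A) t →
    CurveGD k Ch.B₀ Ch.B₁ Ch.B₀₁ A → Prop

variable {Ch}

/-- Restriction of a recipe along a morphism `ψ : T' ⟶ T` over `k`. -/
def Recipe.comap {T T' : Scheme.{u}} {t : T ⟶ Spec (CommRingCat.of k)}
    {t' : T' ⟶ Spec (CommRingCat.of k)} (𝒢 : Recipe Ch t) (ψ : SchemeHomOver t' t) :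
    Recipe Ch t' :=
  fun A _ _ s G => 𝒢 A (postComp ψ s) G

/-- A good recipe: the prescribed datum is unique up to isomorphism, compatible with base
change, and exists and is rigidifiable. -/
structure Recipe.IsGood {T : Scheme.{u}} {t : T ⟶ Spec (CommRingCat.of k)}
    (𝒢 : Recipe Ch t) : Prop where
  unique : ∀ (A : Type u) [CommRing A] [Algebra k A] (s : SchemeHomOver (specStr k A) t)
    (G₁ G₂ : CurveGD k Ch.B₀ Ch.B₁ Ch.B₀₁ A), 𝒢 A s G₁ → 𝒢 A s G₂ → G₁.IsIso G₂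
  bc : ∀ (A A' : Type u) [CommRing A] [Algebra k A] [CommRing A'] [Algebra k A']
    (a : A →ₐ[k] A') (s : SchemeHomOver (specStr k A) t) (G : CurveGD k Ch.B₀ Ch.B₁ Ch.B₀₁ A)
    (G' : CurveGD k Ch.B₀ Ch.B₁ Ch.B₀₁ A'), 𝒢 A s G → CurveGD.IsBC a G G' →
      𝒢 A' (postComp s (specHomOver k a)) G'
  exists_rig : ∀ (A : Type u) [CommRing A] [Algebra k A] (s : SchemeHomOver (specStr k A) t),
    ∃ G : CurveGD k Ch.B₀ Ch.B₁ Ch.B₀₁ A, 𝒢 A s G ∧ G.Rigidifiable Ch.e

variable (Ch)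

/-- `N` is a model of the recipe `𝒢`: for every affine test `s`, the pullback `s^* N` is
isomorphic to every rigidified line bundle whose gluing datum is prescribed by `𝒢`. -/
def IsModel {T : Scheme.{u}} {t : T ⟶ Spec (CommRingCat.of k)} (𝒢 : Recipe Ch t)
    (N : RigidifiedLineBundle c ε t) : Prop :=
  ∀ (A : Type u) [CommRing A] [Algebra k A] (s : SchemeHomOver (specStr k A) t)
    (G : CurveGD k Ch.B₀ Ch.B₁ Ch.B₀₁ A) (L : RigidifiedLineBundle c ε (specStr k A)),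
    𝒢 A s G → Corr Ch A L.L G → RIso (N.pullbackAlong s) L

/-- The recipe of the tensor product of `M` and `M'`. -/
def tensRecipe {T : Scheme.{u}} {t : T ⟶ Spec (CommRingCat.of k)}
    (M M' : RigidifiedLineBundle c ε t) : Recipe Ch t :=
  fun A _ _ s G'' => ∃ G G' : CurveGD k Ch.B₀ Ch.B₁ Ch.B₀₁ A,
    Corr Ch A (M.pullbackAlong s).L G ∧ Corr Ch A (M'.pullbackAlong s).L G' ∧ IsTensor G G' G''

/-- The recipe of the inverse of `M`. -/
def invRecipe {T : Scheme.{u}} {t : T ⟶ Spec (CommRingCat.of k)}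
    (M : RigidifiedLineBundle c ε t) : Recipe Ch t :=
  fun A _ _ s G' => ∃ G : CurveGD k Ch.B₀ Ch.B₁ Ch.B₀₁ A,
    Corr Ch A (M.pullbackAlong s).L G ∧
      IsTensor G' G (GlueDatum.unit A (A ⊗[k] Ch.B₀) (A ⊗[k] Ch.B₁) (A ⊗[k] Ch.B₀₁))

/-- `M''` is a tensor product of `M` and `M'`. -/
def IsTens {T : Scheme.{u}} (t : T ⟶ Spec (CommRingCat.of k))
    (M M' M'' : RigidifiedLineBundle c ε t) : Prop :=
  IsModel Ch (tensRecipe Ch M M') M''

/-- `M'` is an inverse of `M`. -/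
def IsInv {T : Scheme.{u}} (t : T ⟶ Spec (CommRingCat.of k))
    (M M' : RigidifiedLineBundle c ε t) : Prop :=
  IsModel Ch (invRecipe Ch M) M'

end Recipe

namespace Stmt

/-! ## G-ALG: pure algebra on gluing data (no schemes) -/

/-- **TENS-ISO**: `IsTensor` is invariant under isomorphism in each argument. -/
def TensIso : Prop :=
  ∀ (A R₀ R₁ R₀₁ : Type u) [CommRing A] [CommRing R₀] [CommRing R₁]
    [CommRing R₀₁] [Algebra A R₀] [Algebra A R₁] [Algebra A R₀₁] [Algebra R₀ R₀₁]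
    [Algebra R₁ R₀₁] [IsScalarTower A R₀ R₀₁] [IsScalarTower A R₁ R₀₁]
    (G G' G'' H H' H'' : GlueDatum A R₀ R₁ R₀₁), IsTensor G G' G'' →
      G.IsIso H → G'.IsIso H' → G''.IsIso H'' → IsTensor H H' H''

/-- **TENS-UNIQUE**: two tensor products of the same pair are isomorphic. -/
def TensUnique : Prop :=
  ∀ (A R₀ R₁ R₀₁ : Type u) [CommRing A] [CommRing R₀] [CommRing R₁]
    [CommRing R₀₁] [Algebra A R₀] [Algebra A R₁] [Algebra A R₀₁] [Algebra R₀ R₀₁]
    [Algebra R₁ R₀₁] [IsScalarTower A R₀ R₀₁] [IsScalarTower A R₁ R₀₁]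
    (G G' G₁ G₂ : GlueDatum A R₀ R₁ R₀₁), IsTensor G G' G₁ → IsTensor G G' G₂ → G₁.IsIso G₂

/-- **TENS-COMM**. -/
def TensComm : Prop :=
  ∀ (A R₀ R₁ R₀₁ : Type u) [CommRing A] [CommRing R₀] [CommRing R₁]
    [CommRing R₀₁] [Algebra A R₀] [Algebra A R₁] [Algebra A R₀₁] [Algebra R₀ R₀₁]
    [Algebra R₁ R₀₁] [IsScalarTower A R₀ R₀₁] [IsScalarTower A R₁ R₀₁]
    (G G' G'' : GlueDatum A R₀ R₁ R₀₁), IsTensor G G' G'' → IsTensor G' G G''

/-- **TENS-ASSOC**: `(G ⊗ G') ⊗ G'' ≅ G ⊗ (G' ⊗ G'')`. -/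
def TensAssoc : Prop :=
  ∀ (A R₀ R₁ R₀₁ : Type u) [CommRing A] [CommRing R₀] [CommRing R₁]
    [CommRing R₀₁] [Algebra A R₀] [Algebra A R₁] [Algebra A R₀₁] [Algebra R₀ R₀₁]
    [Algebra R₁ R₀₁] [IsScalarTower A R₀ R₀₁] [IsScalarTower A R₁ R₀₁]
    (G G' G'' X Y Z W : GlueDatum A R₀ R₁ R₀₁), IsTensor G G' X → IsTensor X G'' Y →
      IsTensor G' G'' Z → IsTensor G Z W → Y.IsIso W

/-- **TENS-UNIT**: `O ⊗ G ≅ G`. -/
def TensUnit : Prop :=
  ∀ (A R₀ R₁ R₀₁ : Type u) [CommRing A] [CommRing R₀] [CommRing R₁]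
    [CommRing R₀₁] [Algebra A R₀] [Algebra A R₁] [Algebra A R₀₁] [Algebra R₀ R₀₁]
    [Algebra R₁ R₀₁] [IsScalarTower A R₀ R₀₁] [IsScalarTower A R₁ R₀₁]
    (G : GlueDatum A R₀ R₁ R₀₁), IsTensor (GlueDatum.unit A R₀ R₁ R₀₁) G G

/-- **TENS-INV**: every gluing datum has an inverse (the dual datum). -/
def TensInv : Prop :=
  ∀ (A R₀ R₁ R₀₁ : Type u) [CommRing A] [CommRing R₀] [CommRing R₁]
    [CommRing R₀₁] [Algebra A R₀] [Algebra A R₁] [Algebra A R₀₁] [Algebra R₀ R₀₁]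
    [Algebra R₁ R₀₁] [IsScalarTower A R₀ R₀₁] [IsScalarTower A R₁ R₀₁]
    (G : GlueDatum A R₀ R₁ R₀₁), ∃ G' : GlueDatum A R₀ R₁ R₀₁,
      IsTensor G' G (GlueDatum.unit A R₀ R₁ R₀₁)

section Curve

variable (k : Type u) [Field k]

/-- **TENS-BC**: base change of gluing data (along `A → A'`) preserves tensor products. -/
def TensBC : Prop :=
  ∀ (B₀ B₁ B₀₁ : Type u) [CommRing B₀] [CommRing B₁] [CommRing B₀₁]
    [Algebra k B₀] [Algebra k B₁] [Algebra k B₀₁] [Algebra B₀ B₀₁] [Algebra B₁ B₀₁]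
    [IsScalarTower k B₀ B₀₁] [IsScalarTower k B₁ B₀₁]
    (A A' : Type u) [CommRing A] [Algebra k A] [CommRing A'] [Algebra k A'] (φ : A →ₐ[k] A')
    (G G' G'' : CurveGD k B₀ B₁ B₀₁ A) (H H' H'' : CurveGD k B₀ B₁ B₀₁ A'),
    IsTensor G G' G'' → CurveGD.IsBC φ G H → CurveGD.IsBC φ G' H' → CurveGD.IsBC φ G'' H'' →
      IsTensor H H' H''

/-- **TENS-RIG**: a tensor product of rigidifiable gluing data is rigidifiable. -/
def TensRig : Prop :=
  ∀ (B₀ B₁ B₀₁ : Type u) [CommRing B₀] [CommRing B₁] [CommRing B₀₁]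
    [Algebra k B₀] [Algebra k B₁] [Algebra k B₀₁] [Algebra B₀ B₀₁] [Algebra B₁ B₀₁]
    [IsScalarTower k B₀ B₀₁] [IsScalarTower k B₁ B₀₁] (e : B₁ →ₐ[k] k)
    (A : Type u) [CommRing A] [Algebra k A] (G G' G'' : CurveGD k B₀ B₁ B₀₁ A),
    IsTensor G G' G'' → G.Rigidifiable e → G'.Rigidifiable e → G''.Rigidifiable e

/-- **TENS-RIG-CANCEL**: if `G ⊗ G'` and `G'` are rigidifiable, so is `G`. -/
def TensRigCancel : Prop :=
  ∀ (B₀ B₁ B₀₁ : Type u) [CommRing B₀] [CommRing B₁] [CommRing B₀₁]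
    [Algebra k B₀] [Algebra k B₁] [Algebra k B₀₁] [Algebra B₀ B₀₁] [Algebra B₁ B₀₁]
    [IsScalarTower k B₀ B₀₁] [IsScalarTower k B₁ B₀₁] (e : B₁ →ₐ[k] k)
    (A : Type u) [CommRing A] [Algebra k A] (G G' G'' : CurveGD k B₀ B₁ B₀₁ A),
    IsTensor G G' G'' → G'.Rigidifiable e → G''.Rigidifiable e → G.Rigidifiable e

/-- **DEG-ADD**: over an algebraically closed field `K ⊇ k`, the degree of gluing data on a
curve chart is additive on tensor products. -/
def DegAdd : Prop :=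
  ∀ [IsAlgClosed k] (B₀ B₁ B₀₁ : Type u) [CommRing B₀] [CommRing B₁] [CommRing B₀₁]
    [Algebra k B₀] [Algebra k B₁] [Algebra k B₀₁] [Algebra B₀ B₀₁] [Algebra B₁ B₀₁]
    [IsScalarTower k B₀ B₀₁] [IsScalarTower k B₁ B₀₁] (x : B₀) (y : B₁) (e : B₁ →ₐ[k] k),
    IsCurveChart k B₀ B₁ B₀₁ x y e →
    ∀ (K : Type u) [Field K] [IsAlgClosed K] [Algebra k K] (G G' G'' : CurveGD k B₀ B₁ B₀₁ K),
      IsTensor G G' G'' → G''.degree = G.degree + G'.degree

end Curve

end Stmt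

/-- The pure-algebra leaves of block GRP, bundled. -/
structure AlgLeaves (k : Type u) [Field k] : Prop where
  tensorExists : S27.Stmt.TensorExists.{u}
  tensIso : Stmt.TensIso.{u}
  tensUnique : Stmt.TensUnique.{u}
  tensComm : Stmt.TensComm.{u}
  tensAssoc : Stmt.TensAssoc.{u}
  tensUnit : Stmt.TensUnit.{u}
  tensInv : Stmt.TensInv.{u}
  tensBC : Stmt.TensBC k
  tensRig : Stmt.TensRig k
  tensRigCancel : Stmt.TensRigCancel k
  degAdd : Stmt.DegAdd k

/-! ## The S25 dictionary, bundled (all of it is proved on main in `Fermat/Agent/S25/H*`) -/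

/-- The S25 statements used by block GRP. -/
structure Dict {k : Type u} [Field k] {C : Scheme.{u}} {c : C ⟶ Spec (CommRingCat.of k)}
    {ε : SchemeHomOver (𝟙 (Spec (CommRingCat.of k))) c} (Ch : ChartOf c ε) : Prop where
  sec : S25.Stmt.DictSections Ch
  glue : S25.Stmt.DictGlue Ch
  iso : S25.Stmt.DictIso Ch
  bc : S25.Stmt.DictBC Ch
  bcExists : S25.Stmt.AlgBCExists Ch
  deg : S25.Stmt.DictDeg Ch
  unit : ∀ (A : Type u) [CommRing A] [Algebra k A],
    Corr Ch A (RigidifiedLineBundle.unit (c := c) (ε := ε) (specStr k A)).L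
      (GlueDatum.unit A (A ⊗[k] Ch.B₀) (A ⊗[k] Ch.B₁) (A ⊗[k] Ch.B₀₁))
  degConst : ∀ (K K' : Type u) [Field K] [Field K'] [Algebra k K] [Algebra k K']
    (φ : K →ₐ[k] K') (G : CurveGD k Ch.B₀ Ch.B₁ Ch.B₀₁ K) (G' : CurveGD k Ch.B₀ Ch.B₁ Ch.B₀₁ K'),
    CurveGD.IsBC φ G G' → G'.degree = G.degree
  sheafSep : S25.Stmt.SheafSep c ε
  sheafGlue : S25.Stmt.SheafGlue c ε
  localP : S25.Stmt.LocalP c ε

/-! ## G-REL: the relative tensor calculus (glue blocks) -/

namespace Stmt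

section Rel

variable {k : Type u} [Field k] {C : Scheme.{u}} {c : C ⟶ Spec (CommRingCat.of k)}
  {ε : SchemeHomOver (𝟙 (Spec (CommRingCat.of k))) c} (Ch : ChartOf c ε)

/-- **RECIPE-UNIQUE**: two models of a good recipe are isomorphic. -/
def RecipeUnique : Prop :=
  ∀ {T : Scheme.{u}} (t : T ⟶ Spec (CommRingCat.of k)) (𝒢 : Recipe Ch t), 𝒢.IsGood →
    ∀ N N' : RigidifiedLineBundle c ε t, IsModel Ch 𝒢 N → IsModel Ch 𝒢 N' → RIso N N'

/-- **RECIPE-EXISTS**: a good recipe has a model. -/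
def RecipeExists : Prop :=
  ∀ {T : Scheme.{u}} (t : T ⟶ Spec (CommRingCat.of k)) (𝒢 : Recipe Ch t), 𝒢.IsGood →
    ∃ N : RigidifiedLineBundle c ε t, IsModel Ch 𝒢 N

/-- **RECIPE-CORR**: the pullbacks of a model of a good recipe have the prescribed gluing
data. -/
def RecipeCorr : Prop :=
  ∀ {T : Scheme.{u}} (t : T ⟶ Spec (CommRingCat.of k)) (𝒢 : Recipe Ch t), 𝒢.IsGood →
    ∀ N : RigidifiedLineBundle c ε t, IsModel Ch 𝒢 N →
      ∀ (A : Type u) [CommRing A] [Algebra k A] (s : SchemeHomOver (specStr k A) t)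
        (G : CurveGD k Ch.B₀ Ch.B₁ Ch.B₀₁ A), 𝒢 A s G → Corr Ch A (N.pullbackAlong s).L G

/-- **RECIPE-DEG**: a model of a good recipe prescribing data of degree zero is fibrewise
algebraically equivalent to zero. -/
def RecipeDeg : Prop :=
  ∀ {T : Scheme.{u}} (t : T ⟶ Spec (CommRingCat.of k)) (𝒢 : Recipe Ch t), 𝒢.IsGood →
    (∀ (A : Type u) [CommRing A] [Algebra k A] (s : SchemeHomOver (specStr k A) t)
      (G : CurveGD k Ch.B₀ Ch.B₁ Ch.B₀₁ A), 𝒢 A s G → G.Deg0) →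
    ∀ N : RigidifiedLineBundle c ε t, IsModel Ch 𝒢 N → FibrewiseAlgEquivZero N

/-- **TENS-GOOD**: the recipes of tensor products and of inverses are good, and prescribe data
of degree zero when the inputs are fibrewise algebraically equivalent to zero. -/
def TensGood : Prop :=
  ∀ {T : Scheme.{u}} (t : T ⟶ Spec (CommRingCat.of k)) (M M' : RigidifiedLineBundle c ε t),
    (tensRecipe Ch M M').IsGood ∧ (invRecipe Ch M).IsGood ∧
    (FibrewiseAlgEquivZero M → FibrewiseAlgEquivZero M' →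
      ∀ (A : Type u) [CommRing A] [Algebra k A] (s : SchemeHomOver (specStr k A) t)
        (G : CurveGD k Ch.B₀ Ch.B₁ Ch.B₀₁ A), tensRecipe Ch M M' A s G → G.Deg0) ∧
    (FibrewiseAlgEquivZero M →
      ∀ (A : Type u) [CommRing A] [Algebra k A] (s : SchemeHomOver (specStr k A) t)
        (G : CurveGD k Ch.B₀ Ch.B₁ Ch.B₀₁ A), invRecipe Ch M A s G → G.Deg0)

end Rel

end Stmt

end

end Fermat.Agent.S27.Grp
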